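/-
Cluster L (S41, level raising), WP IHARA, piece A1 (amalgam).  Owner: helper88.

The `q`-integral points of `ℙ¹(ℚ)` and the behaviour of Möbius transformations with `q`-adic
conditions on the entries (the ping-pong table).
-/
import Mathlib

set_option autoImplicit false

noncomputable section

namespace Fermat.Agent.LAmal

open Matrix OnePoint
open scoped MatrixGroups

variable (q : ℕ) [hq : Fact q.Prime]

/-- The `q`-integral points of `ℙ¹(ℚ)`. -/
def Xfin : Set (OnePoint ℚ) := {x | ∃ y : ℚ, x = (y : OnePoint ℚ) ∧ padicNorm q y ≤ 1}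

variable {q}

omit hq in
theorem coe_mem_Xfin {y : ℚ} : (y : OnePoint ℚ) ∈ Xfin q ↔ padicNorm q y ≤ 1 := by
  constructor
  · rintro ⟨z, hz, h⟩
    rw [OnePoint.coe_eq_coe.mp hz]
    exact h
  · intro h
    exact ⟨y, rfl, h⟩

omit hq in
theorem infty_not_mem_Xfin : (∞ : OnePoint ℚ) ∉ Xfin q := by
  rintro ⟨z, hz, -⟩
  exact OnePoint.infty_ne_coe z hz

omit hq in
theorem not_mem_Xfin_iff {x : OnePoint ℚ} :
    x ∉ Xfin q ↔ x = ∞ ∨ ∃ y : ℚ, x = (y : OnePoint ℚ) ∧ 1 < padicNorm q y := by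
  induction x using OnePoint.rec with
  | infty => simp [infty_not_mem_Xfin]
  | coe y =>
    rw [coe_mem_Xfin, not_le]
    constructor
    · intro h
      exact Or.inr ⟨y, rfl, h⟩
    · rintro (h | ⟨z, hz, h⟩)
      · exact absurd h (OnePoint.coe_ne_infty y)
      · rw [OnePoint.coe_eq_coe.mp hz]
        exact h

theorem norm_add_le_one {a b : ℚ} (ha : padicNorm q a ≤ 1) (hb : padicNorm q b ≤ 1) :
    padicNorm q (a + b) ≤ 1 :=
  padicNorm.nonarchimedean.trans (max_le ha hb)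

theorem norm_mul_le_one {a b : ℚ} (ha : padicNorm q a ≤ 1) (hb : padicNorm q b ≤ 1) :
    padicNorm q (a * b) ≤ 1 := by
  rw [padicNorm.mul]
  exact mul_le_one₀ ha (padicNorm.nonneg _) hb

theorem norm_add_eq_of_lt {a b : ℚ} (h : padicNorm q a < padicNorm q b) :
    padicNorm q (a + b) = padicNorm q b := by
  rw [padicNorm.add_eq_max_of_ne h.ne, max_eq_right h.le]

/-- (PP1) `|a|, |b| ≤ 1`, `|c| < 1`, `|d| = 1`: the transformation preserves `Xfin`. -/
theorem smul_mem_Xfin_of (g : GL (Fin 2) ℚ) (h00 : padicNorm q (g 0 0) ≤ 1)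
    (h01 : padicNorm q (g 0 1) ≤ 1) (h10 : padicNorm q (g 1 0) < 1)
    (h11 : padicNorm q (g 1 1) = 1) {x : OnePoint ℚ} (hx : x ∈ Xfin q) : g • x ∈ Xfin q := by
  obtain ⟨y, rfl, hy⟩ := hx
  have h1 : padicNorm q (g 1 0 * y) < padicNorm q (g 1 1) := by
    rw [padicNorm.mul, h11]
    calc padicNorm q (g 1 0) * padicNorm q y ≤ padicNorm q (g 1 0) * 1 :=
          mul_le_mul_of_nonneg_left hy (padicNorm.nonneg _)
      _ < 1 := by rw [mul_one]; exact h10
  have hden : padicNorm q (g 1 0 * y + g 1 1) = 1 := by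
    rw [norm_add_eq_of_lt h1, h11]
  have hne : g 1 0 * y + g 1 1 ≠ 0 := by
    intro h0
    rw [h0, padicNorm.zero] at hden
    exact zero_ne_one hden
  rw [OnePoint.smul_some_eq_ite, if_neg hne, coe_mem_Xfin, padicNorm.div, hden, div_one]
  exact norm_add_le_one (norm_mul_le_one h00 hy) h01

/-- (PP2) `|a|, |b|, |d| ≤ 1`, `|c| = 1`: the transformation maps the complement of `Xfin`
into `Xfin`. -/
theorem smul_mem_Xfin_of_not (g : GL (Fin 2) ℚ) (h00 : padicNorm q (g 0 0) ≤ 1)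
    (h01 : padicNorm q (g 0 1) ≤ 1) (h10 : padicNorm q (g 1 0) = 1)
    (h11 : padicNorm q (g 1 1) ≤ 1) {x : OnePoint ℚ} (hx : x ∉ Xfin q) : g • x ∈ Xfin q := by
  have hc : g 1 0 ≠ 0 := by
    intro h0
    rw [h0, padicNorm.zero] at h10
    exact zero_ne_one h10
  rcases not_mem_Xfin_iff.mp hx with rfl | ⟨y, rfl, hy⟩
  · rw [OnePoint.smul_infty_eq_ite, if_neg hc, coe_mem_Xfin, padicNorm.div, h10, div_one]
    exact h00
  · have h1 : padicNorm q (g 1 1) < padicNorm q (g 1 0 * y) := by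
      rw [padicNorm.mul, h10, one_mul]
      exact h11.trans_lt hy
    have hden : padicNorm q (g 1 0 * y + g 1 1) = padicNorm q y := by
      rw [add_comm, norm_add_eq_of_lt h1, padicNorm.mul, h10, one_mul]
    have hypos : 0 < padicNorm q y := zero_lt_one.trans hy
    have hne : g 1 0 * y + g 1 1 ≠ 0 := by
      intro h0
      rw [h0, padicNorm.zero] at hden
      exact hypos.ne hden
    rw [OnePoint.smul_some_eq_ite, if_neg hne, coe_mem_Xfin, padicNorm.div, hden,
      div_le_one hypos]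
    refine padicNorm.nonarchimedean.trans (max_le ?_ (h01.trans hy.le))
    rw [padicNorm.mul]
    calc padicNorm q (g 0 0) * padicNorm q y ≤ 1 * padicNorm q y :=
          mul_le_mul_of_nonneg_right h00 hypos.le
      _ = padicNorm q y := one_mul _

/-- (PP3) `|a|, |c|, |d| ≤ 1`, `|b| > 1`: the transformation maps `Xfin` into its complement. -/
theorem smul_not_mem_Xfin_of (g : GL (Fin 2) ℚ) (h00 : padicNorm q (g 0 0) ≤ 1)
    (h01 : 1 < padicNorm q (g 0 1)) (h10 : padicNorm q (g 1 0) ≤ 1)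
    (h11 : padicNorm q (g 1 1) ≤ 1) {x : OnePoint ℚ} (hx : x ∈ Xfin q) : g • x ∉ Xfin q := by
  obtain ⟨y, rfl, hy⟩ := hx
  rw [OnePoint.smul_some_eq_ite]
  split_ifs with h0
  · exact infty_not_mem_Xfin
  · rw [coe_mem_Xfin, not_le, padicNorm.div]
    have hnum : padicNorm q (g 0 0 * y + g 0 1) = padicNorm q (g 0 1) :=
      norm_add_eq_of_lt ((norm_mul_le_one h00 hy).trans_lt h01)
    have hden : padicNorm q (g 1 0 * y + g 1 1) ≤ 1 :=
      norm_add_le_one (norm_mul_le_one h10 hy) h11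
    have hdpos : 0 < padicNorm q (g 1 0 * y + g 1 1) :=
      lt_of_le_of_ne (padicNorm.nonneg _) (Ne.symm (padicNorm.nonzero h0))
    rw [hnum, lt_div_iff₀ hdpos]
    calc 1 * padicNorm q (g 1 0 * y + g 1 1) ≤ 1 * 1 :=
          mul_le_mul_of_nonneg_left hden zero_le_one
      _ = 1 := one_mul _
      _ < padicNorm q (g 0 1) := h01

end Fermat.Agent.LAmal
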