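/-
Cluster L (S41, level raising), WP IHARA, piece A1 (amalgam).  Owner: helper88.

A ping-pong lemma for amalgamated products of two groups: if `f i : G i →* K` agree on the base
group `H` and play ping-pong on two disjoint sets, the induced map from Mathlib's
`Monoid.PushoutI` to `K` is injective.
-/
import Mathlib

set_option autoImplicit false

noncomputable section

namespace Fermat.Agent.LAmal

open Monoid Monoid.PushoutI Monoid.CoprodI Monoid.PushoutI.NormalWord
open scoped Pointwise

variable {H K : Type*} [Group H] [Group K] {G : Bool → Type*} [∀ i, Group (G i)]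
  {φ : ∀ i, H →* G i} {α : Type*} [MulAction K α]

/-- The product in `K` of the images of the letters of a word. -/
def listProd (f : ∀ i, G i →* K) (l : List (Σ i, G i)) : K :=
  (l.map fun x => f x.1 x.2).prod

@[simp] theorem listProd_nil (f : ∀ i, G i →* K) : listProd f [] = 1 := rfl

@[simp] theorem listProd_cons (f : ∀ i, G i →* K) (a : Σ i, G i) (l : List (Σ i, G i)) :
    listProd f (a :: l) = f a.1 a.2 * listProd f l := by
  simp [listProd]

theorem lift_ofCoprodI_prod (f : ∀ i, G i →* K) (k : H →* K)
    (hf : ∀ i, (f i).comp (φ i) = k) (w : Word G) :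
    lift f k hf (ofCoprodI (φ := φ) w.prod) = listProd f w.toList := by
  rw [Word.prod, map_list_prod, map_list_prod, listProd, List.map_map, List.map_map]
  refine congrArg List.prod (List.map_congr_left fun x _ => ?_)
  simp only [Function.comp_apply, ofCoprodI_of, PushoutI.lift_of]

theorem lift_normalWord_prod (f : ∀ i, G i →* K) (k : H →* K)
    (hf : ∀ i, (f i).comp (φ i) = k) {d : Transversal φ} (w : NormalWord d) :
    lift f k hf w.prod = k w.head * listProd f w.toList := by
  rw [NormalWord.prod, map_mul, lift_base, lift_ofCoprodI_prod]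

/-- A letter of a normal word does not lie in the base group. -/
theorem not_mem_range_of_mem {d : Transversal φ} (w : NormalWord d) {x : Σ i, G i}
    (hx : x ∈ w.toList) : x.2 ∉ (φ x.1).range := by
  obtain ⟨i, g⟩ := x
  intro hg
  have h1 : g ≠ 1 := w.ne_one _ hx
  have h2 : g ∈ d.set i := w.normalized i g hx
  apply h1
  have h3 := ((d.compl i).coe_equiv_snd_eq_one_iff_mem (g := g) (d.one_mem i)).mpr hg
  have h4 := ((d.compl i).equiv_snd_eq_self_iff_mem (g := g) (one_mem _)).mpr h2
  rw [← h4, h3]

/-- Ping-pong along a reduced alternating list of letters. -/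
theorem listProd_smul_subset (f : ∀ i, G i →* K) (X : Bool → Set α)
    (hpp : ∀ i (g : G i), g ∉ (φ i).range → f i g • X (!i) ⊆ X i) :
    ∀ (l : List (Σ i, G i)) (a : Σ i, G i), (a :: l).IsChain (fun x y => x.1 ≠ y.1) →
      (∀ x ∈ a :: l, x.2 ∉ (φ x.1).range) →
      ∃ j, listProd f (a :: l) • X j ⊆ f a.1 a.2 • X (!a.1) := by
  intro l
  induction l with
  | nil =>
    intro a _ _
    exact ⟨!a.1, by simp⟩
  | cons b l ih =>
    intro a hchain hmem
    have hchain' : (b :: l).IsChain (fun x y => x.1 ≠ y.1) := hchain.tail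
    have hab : a.1 ≠ b.1 := by
      have := hchain
      simp only [List.isChain_cons_cons] at this
      exact this.1
    obtain ⟨j, hj⟩ := ih b hchain' (fun x hx => hmem x (List.mem_cons_of_mem _ hx))
    refine ⟨j, ?_⟩
    rw [listProd_cons, mul_smul]
    refine Set.smul_set_mono ?_
    refine hj.trans ?_
    have hb : b.1 = !a.1 := by
      rcases ha : a.1 with _ | _ <;> rcases hb : b.1 with _ | _ <;> simp_all
    have := hpp b.1 b.2 (hmem b (List.mem_cons_of_mem _ List.mem_cons_self))
    rw [← hb]
    exact this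

/-- **Ping-pong lemma for amalgamated products of two groups.** -/
theorem lift_injective_of_pingPong (f : ∀ i, G i →* K) (k : H →* K)
    (hf : ∀ i, (f i).comp (φ i) = k) (hφ : ∀ i, Function.Injective (φ i))
    (hk : Function.Injective k) (X : Bool → Set α) (hXne : ∀ i, (X i).Nonempty)
    (hXdisj : Disjoint (X false) (X true))
    (hH : ∀ (h : H) (i : Bool), k h • X i ⊆ X i)
    (hpp : ∀ i (g : G i), g ∉ (φ i).range → f i g • X (!i) ⊆ X i)
    (hstrict : ∀ i (g : G i), g ∉ (φ i).range → ∃ x ∈ X i, x ∉ f i g • X (!i)) :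
    Function.Injective (lift f k hf) := by
  classical
  obtain ⟨d⟩ := transversal_nonempty φ hφ
  rw [injective_iff_map_eq_one]
  intro p hp
  obtain ⟨w, rfl⟩ : ∃ w : NormalWord d, w.prod = p :=
    ⟨NormalWord.equiv p, NormalWord.equiv.symm_apply_apply p⟩
  rw [lift_normalWord_prod] at hp
  rcases hlist : w.toList with _ | ⟨a, l⟩
  · rw [hlist, listProd_nil, mul_one] at hp
    have hhead : w.head = 1 := hk (by rw [hp, map_one])
    have hw : w = NormalWord.empty := NormalWord.ext (by rw [hhead]; rfl) (by rw [hlist]; rfl)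
    rw [hw, NormalWord.prod_empty]
  · exfalso
    have hchain : (a :: l).IsChain (fun x y => x.1 ≠ y.1) := hlist ▸ w.chain_ne
    have hmem : ∀ x ∈ a :: l, x.2 ∉ (φ x.1).range := fun x hx =>
      not_mem_range_of_mem w (hlist ▸ hx)
    obtain ⟨j, hj⟩ := listProd_smul_subset f X hpp l a hchain hmem
    rw [hlist] at hp
    have hP : listProd f (a :: l) = k w.head⁻¹ := by
      rw [map_inv]
      exact eq_inv_of_mul_eq_one_right hp
    have hXj : X j ⊆ listProd f (a :: l) • X j := by
      rw [hP]
      intro x hx
      refine ⟨k w.head • x, hH w.head j ⟨x, hx, rfl⟩, ?_⟩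
      simp [map_inv]
    have h1 : X j ⊆ f a.1 a.2 • X (!a.1) := hXj.trans hj
    have h2 : X j ⊆ X a.1 := h1.trans (hpp a.1 a.2 (hmem a List.mem_cons_self))
    have hja : j = a.1 := by
      by_contra hne
      obtain ⟨x, hx⟩ := hXne j
      have hx2 := h2 hx
      have hd : Disjoint (X j) (X a.1) := by
        rcases hj' : j with _ | _ <;> rcases ha' : a.1 with _ | _
        · exact absurd (hj'.trans ha'.symm) hne
        · exact hXdisj
        · exact hXdisj.symm
        · exact absurd (hj'.trans ha'.symm) hne
      exact Set.disjoint_left.mp hd hx hx2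
    obtain ⟨x, hx, hx'⟩ := hstrict a.1 a.2 (hmem a List.mem_cons_self)
    exact hx' (h1 (hja ▸ hx))

end Fermat.Agent.LAmal
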