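/-
Cluster L (S41, level raising), WP IHARA, piece A1 (amalgam).  Owner: helper88.

The embedding `ℤ[1/q] → ℚ`, the induced map `SL₂(ℤ[1/q]) → GL₂(ℚ)` and the action of
`Γ₀(N)[1/q]` on `ℙ¹(ℚ)`.
-/
import Fermat.Agent.L.Ihara.Defs
import Mathlib

set_option autoImplicit false

noncomputable section

namespace Fermat.Agent.LAmal

open CongruenceSubgroup Matrix Fermat.Agent.LIh
open scoped MatrixGroups

variable (q : ℕ) [NeZero q]

theorem isUnit_q_rat : IsUnit ((Int.castRingHom ℚ) (q : ℤ)) := by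
  rw [isUnit_iff_ne_zero]
  simpa using NeZero.ne q

/-- The ring homomorphism `ℤ[1/q] → ℚ`. -/
def toQ : Zq q →+* ℚ := IsLocalization.Away.lift (q : ℤ) (isUnit_q_rat q)

@[simp] theorem toQ_int (n : ℤ) : toQ q (algebraMap ℤ (Zq q) n) = (n : ℚ) := by
  rw [toQ, IsLocalization.Away.lift_eq]
  rfl

@[simp] theorem toQ_intCast (n : ℤ) : toQ q (n : Zq q) = (n : ℚ) := by
  rw [map_intCast]

@[simp] theorem toQ_natCast (n : ℕ) : toQ q (n : Zq q) = (n : ℚ) := by
  rw [map_natCast]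

theorem toQ_invq : toQ q (invq q) = (q : ℚ)⁻¹ := by
  have h := congrArg (toQ q) (q_mul_invq q)
  rw [map_mul, map_one, toQ_natCast] at h
  exact eq_inv_of_mul_eq_one_right h

theorem algebraMap_Zq_injective : Function.Injective (algebraMap ℤ (Zq q)) := by
  refine IsLocalization.injective (Zq q) (M := Submonoid.powers (q : ℤ)) ?_
  intro x hx
  obtain ⟨n, rfl⟩ := hx
  exact mem_nonZeroDivisors_of_ne_zero (pow_ne_zero _ (by exact_mod_cast NeZero.ne q))

/-- `SL₂(ℤ[1/q]) → GL₂(ℚ)`. -/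
def jQ : Gq q →* GL (Fin 2) ℚ :=
  Matrix.SpecialLinearGroup.toGL.comp (Matrix.SpecialLinearGroup.map (toQ q))

@[simp] theorem jQ_apply (g : Gq q) (i j : Fin 2) : (jQ q g : Matrix (Fin 2) (Fin 2) ℚ) i j =
    toQ q (g i j) := by
  simp [jQ]

end Fermat.Agent.LAmal
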