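/-
Cluster L (S41, level raising), WP IHARA, piece A1 (amalgam).  Owner: helper88.

The natural map `Γ₀(N) *_{Γ₀(N q)} Γ₀(N) → Γ₀(N)[1/q]` (amalgam along `incl`, `inclD`; the two
factors are mapped by `iota`, `iotaD`) is injective: ping-pong on `ℙ¹(ℚ)`.
-/
import Fermat.Agent.L.Amalgam.PingPong
import Fermat.Agent.L.Amalgam.ToQ
import Fermat.Agent.L.Amalgam.Moebius
import Fermat.Agent.L.Degen.Cover

set_option autoImplicit false
set_option linter.unusedSectionVars false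

noncomputable section

namespace Fermat.Agent.LAmal

open CongruenceSubgroup Matrix Fermat.Agent.LIh Fermat.Agent.LDeg OnePoint
open scoped MatrixGroups Pointwise

variable (N q : ℕ) [NeZero q]

/-- The constant family of the two factors. -/
abbrev Fam (N : ℕ) : Bool → Type := fun _ => Gamma0 N

/-- The two maps of the amalgamation diagram: `false ↦ incl`, `true ↦ inclD`. -/
def phiFam : ∀ i : Bool, Gamma0 (N * q) →* Fam N i :=
  fun i => cond i (L.inclD N q) (L.incl N q)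

/-- The two maps to `Γ₀(N)[1/q]`: `false ↦ iota`, `true ↦ iotaD`. -/
def fFam : ∀ i : Bool, Fam N i →* Delta N q :=
  fun i => cond i (iotaD N q) (iota N q)

/-- The map on the base group. -/
def kBase : Gamma0 (N * q) →* Delta N q := (iota N q).comp (L.incl N q)

theorem iotaD_inclD (x : Gamma0 (N * q)) :
    iotaD N q (L.inclD N q x) = iota N q (L.incl N q x) := by
  apply Subtype.ext
  apply Subtype.ext
  obtain ⟨c, hc⟩ := q_dvd_of_Gamma0_mul x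
  have hq0 : (q : ℤ) ≠ 0 := by exact_mod_cast NeZero.ne q
  have h1 := q_mul_invq q
  have e00 : ((L.inclD N q x : Gamma0 N) : SL(2, ℤ)) 0 0 = (x : SL(2, ℤ)) 0 0 := by
    show (((L.inclD N q x : Gamma0 N) : SL(2, ℤ)) : Matrix (Fin 2) (Fin 2) ℤ) 0 0 = _
    rw [L.inclD_coe]; simp [L.conjDMat]
  have e01 : ((L.inclD N q x : Gamma0 N) : SL(2, ℤ)) 0 1 = (q : ℤ) * (x : SL(2, ℤ)) 0 1 := by
    show (((L.inclD N q x : Gamma0 N) : SL(2, ℤ)) : Matrix (Fin 2) (Fin 2) ℤ) 0 1 = _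
    rw [L.inclD_coe]; simp [L.conjDMat]
  have e10 : ((L.inclD N q x : Gamma0 N) : SL(2, ℤ)) 1 0 = c := by
    show (((L.inclD N q x : Gamma0 N) : SL(2, ℤ)) : Matrix (Fin 2) (Fin 2) ℤ) 1 0 = _
    rw [L.inclD_coe]; simp [L.conjDMat, hc, Int.mul_ediv_cancel_left _ hq0]
  have e11 : ((L.inclD N q x : Gamma0 N) : SL(2, ℤ)) 1 1 = (x : SL(2, ℤ)) 1 1 := by
    show (((L.inclD N q x : Gamma0 N) : SL(2, ℤ)) : Matrix (Fin 2) (Fin 2) ℤ) 1 1 = _
    rw [L.inclD_coe]; simp [L.conjDMat]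
  ext i j
  show conjInvMat q (iotaZ q (L.inclD N q x : Gamma0 N)) i j = (iotaZ q (x : SL(2, ℤ))) i j
  fin_cases i <;> fin_cases j
  · simp [conjInvMat, e00]
  · simp only [conjInvMat, Fin.zero_eta, Fin.isValue, Fin.mk_one, Matrix.of_apply,
      Matrix.cons_val', Matrix.cons_val_zero, Matrix.cons_val_one, Matrix.cons_val_fin_one,
      iotaZ_apply, e01]
    push_cast
    linear_combination ((x : SL(2, ℤ)) 0 1 : Zq q) * h1
  · simp only [conjInvMat, Fin.zero_eta, Fin.isValue, Fin.mk_one, Matrix.of_apply,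
      Matrix.cons_val', Matrix.cons_val_zero, Matrix.cons_val_one, Matrix.cons_val_fin_one,
      iotaZ_apply, e10, hc]
    push_cast
    rfl
  · simp [conjInvMat, e11]

theorem fFam_comp : ∀ i : Bool, (fFam N q i).comp (phiFam N q i) = kBase N q := by
  intro i
  cases i
  · rfl
  · refine MonoidHom.ext fun x => ?_
    exact iotaD_inclD N q x

/-- The natural map from the amalgam to `Γ₀(N)[1/q]`. -/
def amalLift : Monoid.PushoutI (phiFam N q) →* Delta N q :=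
  Monoid.PushoutI.lift (fFam N q) (kBase N q) (fFam_comp N q)

/-- The action of `Γ₀(N)[1/q]` on `ℙ¹(ℚ)` by Möbius transformations. -/
abbrev deltaAction : MulAction (Delta N q) (OnePoint ℚ) :=
  MulAction.compHom _ ((jQ q).comp (Delta N q).subtype)

theorem deltaAction_smul (g : Delta N q) (x : OnePoint ℚ) :
    (deltaAction N q).smul g x = jQ q (g : Gq q) • x := rfl

theorem jQ_iota_apply (γ : Gamma0 N) (i j : Fin 2) :
    (jQ q (iota N q γ : Gq q) : Matrix (Fin 2) (Fin 2) ℚ) i j =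
      (((γ : SL(2, ℤ)) i j : ℤ) : ℚ) := by
  rw [jQ_apply, iota_coe, iotaZ_apply, toQ_intCast]

theorem jQ_iotaD_00 (γ : Gamma0 N) :
    (jQ q (iotaD N q γ : Gq q) : Matrix (Fin 2) (Fin 2) ℚ) 0 0 =
      (((γ : SL(2, ℤ)) 0 0 : ℤ) : ℚ) := by
  rw [jQ_apply, iotaD_coe, conjInv_coe]
  simp [conjInvMat]

theorem jQ_iotaD_01 (γ : Gamma0 N) :
    (jQ q (iotaD N q γ : Gq q) : Matrix (Fin 2) (Fin 2) ℚ) 0 1 =
      (((γ : SL(2, ℤ)) 0 1 : ℤ) : ℚ) / (q : ℚ) := by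
  rw [jQ_apply, iotaD_coe, conjInv_coe]
  simp [conjInvMat, toQ_invq, div_eq_mul_inv]

theorem jQ_iotaD_10 (γ : Gamma0 N) :
    (jQ q (iotaD N q γ : Gq q) : Matrix (Fin 2) (Fin 2) ℚ) 1 0 =
      (q : ℚ) * (((γ : SL(2, ℤ)) 1 0 : ℤ) : ℚ) := by
  rw [jQ_apply, iotaD_coe, conjInv_coe]
  simp [conjInvMat]

theorem jQ_iotaD_11 (γ : Gamma0 N) :
    (jQ q (iotaD N q γ : Gq q) : Matrix (Fin 2) (Fin 2) ℚ) 1 1 =
      (((γ : SL(2, ℤ)) 1 1 : ℤ) : ℚ) := by
  rw [jQ_apply, iotaD_coe, conjInv_coe]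
  simp [conjInvMat]

section PingPongTable

variable {N q} [hq : Fact q.Prime]

theorem norm_int_eq_one {n : ℤ} (h : ¬ (q : ℤ) ∣ n) : padicNorm q (n : ℚ) = 1 :=
  (padicNorm.int_eq_one_iff n).mpr h

theorem norm_int_lt_one {n : ℤ} (h : (q : ℤ) ∣ n) : padicNorm q (n : ℚ) < 1 :=
  (padicNorm.int_lt_one_iff n).mpr h

theorem norm_q_eq : padicNorm q (q : ℚ) = (q : ℚ)⁻¹ := padicNorm.padicNorm_p hq.out.one_lt

theorem one_lt_q_rat : (1 : ℚ) < (q : ℚ) := by exact_mod_cast hq.out.one_lt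

theorem not_dvd_11_of_dvd_10 (g : SL(2, ℤ)) (h : (q : ℤ) ∣ g 1 0) : ¬ (q : ℤ) ∣ g 1 1 := by
  intro h'
  have hdet := g.det_coe
  rw [Matrix.det_fin_two] at hdet
  have h1 : (q : ℤ) ∣ 1 := by
    rw [← hdet]
    exact dvd_sub (Dvd.dvd.mul_left h' _) (Dvd.dvd.mul_left h _)
  have h2 := Int.eq_one_of_dvd_one (by positivity) h1
  have h3 : q = 1 := by exact_mod_cast h2
  exact hq.out.one_lt.ne' h3

/-- (hH, `Xfin`) the base group preserves `Xfin`. -/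
theorem base_smul_mem (h : Gamma0 (N * q)) {x : OnePoint ℚ} (hx : x ∈ Xfin q) :
    jQ q (kBase N q h : Gq q) • x ∈ Xfin q := by
  have hc : (q : ℤ) ∣ (h : SL(2, ℤ)) 1 0 := q_dvd_of_Gamma0_mul h
  refine smul_mem_Xfin_of _ ?_ ?_ ?_ ?_ hx
  · show padicNorm q ((jQ q (iota N q (L.incl N q h) : Gq q) : Matrix (Fin 2) (Fin 2) ℚ) 0 0) ≤ 1
    rw [jQ_iota_apply]
    exact padicNorm.of_int _
  · show padicNorm q ((jQ q (iota N q (L.incl N q h) : Gq q) : Matrix (Fin 2) (Fin 2) ℚ) 0 1) ≤ 1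
    rw [jQ_iota_apply]
    exact padicNorm.of_int _
  · show padicNorm q ((jQ q (iota N q (L.incl N q h) : Gq q) : Matrix (Fin 2) (Fin 2) ℚ) 1 0) < 1
    rw [jQ_iota_apply]
    exact norm_int_lt_one hc
  · show padicNorm q ((jQ q (iota N q (L.incl N q h) : Gq q) : Matrix (Fin 2) (Fin 2) ℚ) 1 1) = 1
    rw [jQ_iota_apply]
    exact norm_int_eq_one (not_dvd_11_of_dvd_10 _ hc)

/-- (hpp, `false`) -/
theorem iota_smul_mem (g : Gamma0 N) (hg : ¬ (q : ℤ) ∣ (g : SL(2, ℤ)) 1 0) {x : OnePoint ℚ}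
    (hx : x ∉ Xfin q) : jQ q (iota N q g : Gq q) • x ∈ Xfin q := by
  refine smul_mem_Xfin_of_not _ ?_ ?_ ?_ ?_ hx
  · rw [jQ_iota_apply]; exact padicNorm.of_int _
  · rw [jQ_iota_apply]; exact padicNorm.of_int _
  · rw [jQ_iota_apply]; exact norm_int_eq_one hg
  · rw [jQ_iota_apply]; exact padicNorm.of_int _

theorem norm_int_div_q {n : ℤ} (h : ¬ (q : ℤ) ∣ n) : padicNorm q ((n : ℚ) / (q : ℚ)) = (q : ℚ) := by
  rw [padicNorm.div, norm_int_eq_one h, norm_q_eq, one_div, inv_inv]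

theorem norm_q_mul_int (n : ℤ) : padicNorm q ((q : ℚ) * (n : ℚ)) ≤ 1 := by
  have h : ((q : ℚ) * (n : ℚ)) = (((q : ℤ) * n : ℤ) : ℚ) := by push_cast; rfl
  rw [h]
  exact padicNorm.of_int _

/-- (hpp, `true`) -/
theorem iotaD_smul_not_mem (g : Gamma0 N) (hg : ¬ (q : ℤ) ∣ (g : SL(2, ℤ)) 0 1)
    {x : OnePoint ℚ} (hx : x ∈ Xfin q) : jQ q (iotaD N q g : Gq q) • x ∉ Xfin q := by
  refine smul_not_mem_Xfin_of _ ?_ ?_ ?_ ?_ hx
  · rw [jQ_iotaD_00]; exact padicNorm.of_int _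
  · rw [jQ_iotaD_01, norm_int_div_q hg]; exact one_lt_q_rat
  · rw [jQ_iotaD_10]; exact norm_q_mul_int _
  · rw [jQ_iotaD_11]; exact padicNorm.of_int _

/-- (hstrict, `false`) -/
theorem exists_mem_iota_smul_mem (g : Gamma0 N) (hg : ¬ (q : ℤ) ∣ (g : SL(2, ℤ)) 1 0) :
    ∃ y ∈ Xfin q, jQ q (iota N q g : Gq q) • y ∈ Xfin q := by
  by_cases hd : (q : ℤ) ∣ (g : SL(2, ℤ)) 1 1
  · -- `y = 1`
    have hcd : ¬ (q : ℤ) ∣ (g : SL(2, ℤ)) 1 0 + (g : SL(2, ℤ)) 1 1 := fun h =>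
      hg ((dvd_add_left hd).mp h)
    refine ⟨((1 : ℚ) : OnePoint ℚ), coe_mem_Xfin.mpr (by rw [padicNorm.one]), ?_⟩
    have hden : padicNorm q ((((g : SL(2, ℤ)) 1 0 : ℤ) : ℚ) * 1 + (((g : SL(2, ℤ)) 1 1 : ℤ) : ℚ))
        = 1 := by
      have h : ((((g : SL(2, ℤ)) 1 0 : ℤ) : ℚ) * 1 + (((g : SL(2, ℤ)) 1 1 : ℤ) : ℚ)) =
          ((((g : SL(2, ℤ)) 1 0 + (g : SL(2, ℤ)) 1 1 : ℤ)) : ℚ) := by push_cast; ring
      rw [h]
      exact norm_int_eq_one hcd
    have hne : (((g : SL(2, ℤ)) 1 0 : ℤ) : ℚ) * 1 + (((g : SL(2, ℤ)) 1 1 : ℤ) : ℚ) ≠ 0 := by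
      intro h0
      rw [h0, padicNorm.zero] at hden
      exact zero_ne_one hden
    rw [OnePoint.smul_some_eq_ite, jQ_iota_apply, jQ_iota_apply, jQ_iota_apply, jQ_iota_apply,
      if_neg hne, coe_mem_Xfin, padicNorm.div, hden, div_one]
    exact norm_add_le_one (norm_mul_le_one (padicNorm.of_int _) (by rw [padicNorm.one]))
      (padicNorm.of_int _)
  · -- `y = 0`
    refine ⟨((0 : ℚ) : OnePoint ℚ), coe_mem_Xfin.mpr (by rw [padicNorm.zero]; exact zero_le_one),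
      ?_⟩
    have hden : padicNorm q ((((g : SL(2, ℤ)) 1 0 : ℤ) : ℚ) * 0 + (((g : SL(2, ℤ)) 1 1 : ℤ) : ℚ))
        = 1 := by
      rw [mul_zero, zero_add]
      exact norm_int_eq_one hd
    have hne : (((g : SL(2, ℤ)) 1 0 : ℤ) : ℚ) * 0 + (((g : SL(2, ℤ)) 1 1 : ℤ) : ℚ) ≠ 0 := by
      intro h0
      rw [h0, padicNorm.zero] at hden
      exact zero_ne_one hden
    rw [OnePoint.smul_some_eq_ite, jQ_iota_apply, jQ_iota_apply, jQ_iota_apply, jQ_iota_apply,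
      if_neg hne, coe_mem_Xfin, padicNorm.div, hden, div_one]
    exact norm_add_le_one (norm_mul_le_one (padicNorm.of_int _)
      (by rw [padicNorm.zero]; exact zero_le_one)) (padicNorm.of_int _)

/-- (hstrict, `true`) -/
theorem exists_not_mem_iotaD_smul_not_mem (g : Gamma0 N)
    (hg : ¬ (q : ℤ) ∣ (g : SL(2, ℤ)) 0 1) :
    ∃ y ∉ Xfin q, jQ q (iotaD N q g : Gq q) • y ∉ Xfin q := by
  have hqpos : (0 : ℚ) < (q : ℚ) := zero_lt_one.trans one_lt_q_rat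
  have hq0 : (q : ℚ) ≠ 0 := hqpos.ne'
  by_cases ha : (q : ℤ) ∣ (g : SL(2, ℤ)) 0 0
  · -- `y = 1/q`
    have hab : ¬ (q : ℤ) ∣ (g : SL(2, ℤ)) 0 0 + (g : SL(2, ℤ)) 0 1 := fun h =>
      hg ((dvd_add_right ha).mp h)
    refine ⟨(((q : ℚ)⁻¹ : ℚ) : OnePoint ℚ), ?_, ?_⟩
    · rw [coe_mem_Xfin, not_le, inv_eq_one_div, padicNorm.div, padicNorm.one, norm_q_eq,
        one_div, inv_inv]
      exact one_lt_q_rat
    · rw [OnePoint.smul_some_eq_ite, jQ_iotaD_00, jQ_iotaD_01, jQ_iotaD_10, jQ_iotaD_11]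
      split_ifs with h0
      · exact infty_not_mem_Xfin
      · have hnum : (((g : SL(2, ℤ)) 0 0 : ℤ) : ℚ) * (q : ℚ)⁻¹ +
            (((g : SL(2, ℤ)) 0 1 : ℤ) : ℚ) / (q : ℚ) =
            ((((g : SL(2, ℤ)) 0 0 + (g : SL(2, ℤ)) 0 1 : ℤ)) : ℚ) / (q : ℚ) := by
          push_cast; field_simp
        have hden : (q : ℚ) * (((g : SL(2, ℤ)) 1 0 : ℤ) : ℚ) * (q : ℚ)⁻¹ +
            (((g : SL(2, ℤ)) 1 1 : ℤ) : ℚ) =
            ((((g : SL(2, ℤ)) 1 0 + (g : SL(2, ℤ)) 1 1 : ℤ)) : ℚ) := by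
          push_cast; field_simp
        rw [hden] at h0
        rw [hnum, hden, coe_mem_Xfin, not_le, padicNorm.div, norm_int_div_q hab]
        have hd1 : padicNorm q ((((g : SL(2, ℤ)) 1 0 + (g : SL(2, ℤ)) 1 1 : ℤ)) : ℚ) ≤ 1 :=
          padicNorm.of_int _
        have hdpos : 0 < padicNorm q ((((g : SL(2, ℤ)) 1 0 + (g : SL(2, ℤ)) 1 1 : ℤ)) : ℚ) :=
          lt_of_le_of_ne (padicNorm.nonneg _) (Ne.symm (padicNorm.nonzero h0))
        rw [lt_div_iff₀ hdpos]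
        calc 1 * padicNorm q ((((g : SL(2, ℤ)) 1 0 + (g : SL(2, ℤ)) 1 1 : ℤ)) : ℚ) ≤ 1 * 1 :=
              mul_le_mul_of_nonneg_left hd1 zero_le_one
          _ = 1 := one_mul _
          _ < (q : ℚ) := one_lt_q_rat
  · -- `y = ∞`
    refine ⟨∞, infty_not_mem_Xfin, ?_⟩
    rw [OnePoint.smul_infty_eq_ite, jQ_iotaD_00, jQ_iotaD_10]
    split_ifs with h0
    · exact infty_not_mem_Xfin
    · rw [coe_mem_Xfin, not_le, padicNorm.div, norm_int_eq_one ha]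
      have hd1 : padicNorm q ((q : ℚ) * (((g : SL(2, ℤ)) 1 0 : ℤ) : ℚ)) < 1 := by
        rw [padicNorm.mul, norm_q_eq]
        calc (q : ℚ)⁻¹ * padicNorm q (((g : SL(2, ℤ)) 1 0 : ℤ) : ℚ) ≤ (q : ℚ)⁻¹ * 1 :=
              mul_le_mul_of_nonneg_left (padicNorm.of_int _) (inv_nonneg.mpr hqpos.le)
          _ = (q : ℚ)⁻¹ := mul_one _
          _ < 1 := inv_lt_one_of_one_lt₀ one_lt_q_rat
      have hdpos : 0 < padicNorm q ((q : ℚ) * (((g : SL(2, ℤ)) 1 0 : ℤ) : ℚ)) :=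
        lt_of_le_of_ne (padicNorm.nonneg _) (Ne.symm (padicNorm.nonzero h0))
      rw [lt_div_iff₀ hdpos, one_mul]
      exact hd1

end PingPongTable

section Injective

variable {N q}

theorem iota_injective : Function.Injective (iota N q) := by
  intro γ γ' h
  apply Gamma0_ext
  ext i j
  have h1 : (iotaZ q (γ : SL(2, ℤ))) i j = (iotaZ q (γ' : SL(2, ℤ))) i j := by
    have h2 := congrArg (fun x : Delta N q => (x : Gq q)) h
    simp only [iota_coe] at h2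
    rw [h2]
  rw [iotaZ_apply, iotaZ_apply] at h1
  apply algebraMap_Zq_injective q
  rw [eq_intCast (algebraMap ℤ (Zq q)), eq_intCast (algebraMap ℤ (Zq q))]
  exact h1

theorem not_dvd_of_not_mem_range_incl (hq : q.Prime) (hqN : ¬ q ∣ N) {g : Gamma0 N}
    (hg : g ∉ (L.incl N q).range) : ¬ (q : ℤ) ∣ (g : SL(2, ℤ)) 1 0 := by
  intro h
  apply hg
  have hmem : (g : SL(2, ℤ)) ∈ Gamma0 (N * q) := mem_Gamma0_mul hq hqN (Gamma0_dvd g) h
  exact ⟨⟨(g : SL(2, ℤ)), hmem⟩, Subtype.ext rfl⟩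

theorem not_dvd_of_not_mem_range_inclD {g : Gamma0 N} (hg : g ∉ (L.inclD N q).range) :
    ¬ (q : ℤ) ∣ (g : SL(2, ℤ)) 0 1 := by
  intro h
  apply hg
  obtain ⟨e, he⟩ := exists_inclD_eq g h
  exact ⟨e, he⟩

/-- **Injectivity** of the natural map from the amalgam to `Γ₀(N)[1/q]`. -/
theorem amalLift_injective (hq : q.Prime) (hqN : ¬ q ∣ N) :
    Function.Injective (amalLift N q) := by
  have : Fact q.Prime := ⟨hq⟩
  let _ := deltaAction N q
  have hsm : ∀ (g : Delta N q) (x : OnePoint ℚ), g • x = jQ q (g : Gq q) • x := fun _ _ => rfl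
  refine lift_injective_of_pingPong (fFam N q) (kBase N q) (fFam_comp N q) ?_ ?_
    (fun i => cond i (Xfin q)ᶜ (Xfin q)) ?_ ?_ ?_ ?_ ?_
  · intro i
    cases i
    · exact Subgroup.inclusion_injective (L.Gamma0_mul_le N q)
    · exact L.inclD_injective N q
  · exact iota_injective.comp (Subgroup.inclusion_injective (L.Gamma0_mul_le N q))
  · intro i
    cases i
    · exact ⟨((0 : ℚ) : OnePoint ℚ), coe_mem_Xfin.mpr (by rw [padicNorm.zero]; exact zero_le_one)⟩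
    · exact ⟨∞, infty_not_mem_Xfin⟩
  · exact disjoint_compl_right
  · intro h i
    have key : ∀ (h : Gamma0 (N * q)) (x : OnePoint ℚ), x ∈ Xfin q → kBase N q h • x ∈ Xfin q :=
      fun h x hx => by rw [hsm]; exact base_smul_mem h hx
    cases i
    · rintro _ ⟨x, hx, rfl⟩
      exact key h x hx
    · rintro _ ⟨x, hx, rfl⟩
      intro hmem
      apply hx
      have := key h⁻¹ _ hmem
      rwa [map_inv, inv_smul_smul] at this
  · intro i g hg
    cases i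
    · rintro _ ⟨x, hx, rfl⟩
      show fFam N q false g • x ∈ Xfin q
      rw [hsm]
      exact iota_smul_mem g (not_dvd_of_not_mem_range_incl hq hqN hg) hx
    · rintro _ ⟨x, hx, rfl⟩
      show fFam N q true g • x ∉ Xfin q
      rw [hsm]
      exact iotaD_smul_not_mem g (not_dvd_of_not_mem_range_inclD hg) hx
  · intro i g hg
    cases i
    · obtain ⟨y, hy, hy'⟩ :=
        exists_mem_iota_smul_mem (q := q) g (not_dvd_of_not_mem_range_incl hq hqN hg)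
      refine ⟨fFam N q false g • y, by rw [hsm]; exact hy', ?_⟩
      rintro ⟨z, hz, hzy⟩
      have : z = y := smul_left_cancel _ hzy
      exact hz (this ▸ hy)
    · obtain ⟨y, hy, hy'⟩ :=
        exists_not_mem_iotaD_smul_not_mem (q := q) g (not_dvd_of_not_mem_range_inclD hg)
      refine ⟨fFam N q true g • y, by rw [hsm]; exact hy', ?_⟩
      rintro ⟨z, hz, hzy⟩
      have : z = y := smul_left_cancel _ hzy
      exact hy (this ▸ hz)

end Injective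

end Fermat.Agent.LAmal
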