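/-
Cluster L (S41, level raising), WP IHARA, piece A1 (amalgam).  Owner: helper88.

Glueing: a pair `(c₁, c₂)` of homomorphisms on `Γ₀(N)` with `res c₁ + res_δ c₂ = 0` on `Γ₀(N q)`
is the pair of restrictions (along `iota`, `iotaD`) of a homomorphism on `Γ₀(N)[1/q]`.
Input: injectivity of the natural map from the amalgam (`Inj.lean`) and generation of
`Γ₀(N)[1/q]` by the two copies of `Γ₀(N)`.
-/
import Fermat.Agent.L.Amalgam.Inj
import Fermat.Agent.L.Ihara.Interfaces

set_option autoImplicit false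

noncomputable section

namespace Fermat.Agent.LAmal

open CongruenceSubgroup Matrix Fermat.Agent.LIh Monoid
open scoped MatrixGroups

variable {N q : ℕ} [NeZero q]

theorem amalLift_of (i : Bool) (γ : Fam N i) :
    amalLift N q (PushoutI.of (φ := phiFam N q) i γ) = fFam N q i γ := by
  unfold amalLift
  exact PushoutI.lift_of (fFam N q) (kBase N q) (fFam_comp N q) γ

theorem amalLift_surjective (hsurj : (iota N q).range ⊔ (iotaD N q).range = ⊤) :
    Function.Surjective (amalLift N q) := by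
  rw [← MonoidHom.range_eq_top, eq_top_iff, ← hsurj, sup_le_iff]
  constructor
  · rintro _ ⟨γ, rfl⟩
    exact ⟨PushoutI.of (φ := phiFam N q) false γ, amalLift_of false γ⟩
  · rintro _ ⟨γ, rfl⟩
    exact ⟨PushoutI.of (φ := phiFam N q) true γ, amalLift_of true γ⟩

/-- The amalgam is `Γ₀(N)[1/q]`. -/
def amalEquiv (hq : q.Prime) (hqN : ¬ q ∣ N)
    (hsurj : (iota N q).range ⊔ (iotaD N q).range = ⊤) :
    PushoutI (phiFam N q) ≃* Delta N q :=
  MulEquiv.ofBijective (amalLift N q) ⟨amalLift_injective hq hqN, amalLift_surjective hsurj⟩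

theorem amalEquiv_symm_iota (hq : q.Prime) (hqN : ¬ q ∣ N)
    (hsurj : (iota N q).range ⊔ (iotaD N q).range = ⊤) (γ : Gamma0 N) :
    (amalEquiv hq hqN hsurj).symm (iota N q γ) = PushoutI.of (φ := phiFam N q) false γ := by
  rw [MulEquiv.symm_apply_eq]
  exact (amalLift_of false γ).symm

theorem amalEquiv_symm_iotaD (hq : q.Prime) (hqN : ¬ q ∣ N)
    (hsurj : (iota N q).range ⊔ (iotaD N q).range = ⊤) (γ : Gamma0 N) :
    (amalEquiv hq hqN hsurj).symm (iotaD N q γ) = PushoutI.of (φ := phiFam N q) true γ := by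
  rw [MulEquiv.symm_apply_eq]
  exact (amalLift_of true γ).symm

section Glue

variable {A : Type*} [AddCommGroup A]

/-- The two homomorphisms `c₁`, `-c₂` as a family on the two factors. -/
def cFam (c₁ c₂ : Additive (Gamma0 N) →+ A) : ∀ i : Bool, Fam N i →* Multiplicative A :=
  fun i => cond i (AddMonoidHom.toMultiplicativeRight (-c₂)) (AddMonoidHom.toMultiplicativeRight c₁)

theorem cFam_comp (c₁ c₂ : Additive (Gamma0 N) →+ A)
    (h : L.resAll N q A c₁ + L.resAllD N q A c₂ = 0) :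
    ∀ i : Bool, (cFam c₁ c₂ i).comp (phiFam N q i) =
      (AddMonoidHom.toMultiplicativeRight c₁).comp (L.incl N q) := by
  intro i
  cases i
  · rfl
  · refine MonoidHom.ext fun x => ?_
    have h1 := congrArg (fun f : Additive (Gamma0 (N * q)) →+ A => f (Additive.ofMul x)) h
    simp only [AddMonoidHom.add_apply, L.resAll_apply, L.resAllD_apply,
      AddMonoidHom.zero_apply] at h1
    show Multiplicative.ofAdd ((-c₂) (Additive.ofMul (L.inclD N q x))) =
      Multiplicative.ofAdd (c₁ (Additive.ofMul (L.incl N q x)))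
    rw [AddMonoidHom.neg_apply, eq_neg_of_add_eq_zero_left h1]

/-- The glued homomorphism on the amalgam. -/
def glueHom (c₁ c₂ : Additive (Gamma0 N) →+ A)
    (h : L.resAll N q A c₁ + L.resAllD N q A c₂ = 0) :
    PushoutI (phiFam N q) →* Multiplicative A :=
  PushoutI.lift (cFam c₁ c₂) _ (cFam_comp c₁ c₂ h)

/-- **(A1)** from the generation of `Γ₀(N)[1/q]` by the two copies of `Γ₀(N)`. -/
theorem exists_hom_Delta (hq : q.Prime) (hqN : ¬ q ∣ N)
    (hsurj : (iota N q).range ⊔ (iotaD N q).range = ⊤)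
    (c₁ c₂ : Additive (Gamma0 N) →+ A) (h : L.resAll N q A c₁ + L.resAllD N q A c₂ = 0) :
    ∃ Φ : Additive (Delta N q) →+ A,
      (∀ γ : Gamma0 N, Φ (Additive.ofMul (iota N q γ)) = c₁ (Additive.ofMul γ)) ∧
      (∀ γ : Gamma0 N, Φ (Additive.ofMul (iotaD N q γ)) = - c₂ (Additive.ofMul γ)) := by
  refine ⟨MonoidHom.toAdditiveLeft
    ((glueHom c₁ c₂ h).comp (amalEquiv hq hqN hsurj).symm.toMonoidHom), ?_, ?_⟩
  · intro γ
    show Multiplicative.toAdd (glueHom c₁ c₂ h ((amalEquiv hq hqN hsurj).symm (iota N q γ))) = _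
    rw [amalEquiv_symm_iota, glueHom, PushoutI.lift_of]
    rfl
  · intro γ
    show Multiplicative.toAdd (glueHom c₁ c₂ h ((amalEquiv hq hqN hsurj).symm (iotaD N q γ))) = _
    rw [amalEquiv_symm_iotaD, glueHom, PushoutI.lift_of]
    rfl

end Glue

/-- `GlueStatement` from the generation of `Γ₀(N)[1/q]` by the two copies of `Γ₀(N)`. -/
theorem glueStatement_of_surj
    (hsurj : q.Prime → ¬ q ∣ N → 0 < N → (iota N q).range ⊔ (iotaD N q).range = ⊤) :
    GlueStatement N q := by
  intro hq hqN hN A _ c₁ c₂ h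
  exact exists_hom_Delta hq hqN (hsurj hq hqN hN) c₁ c₂ h

end Fermat.Agent.LAmal
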