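/-
Cluster L / Ihara, piece A1-SURJ (helper59): `Γ₀(N)[1/q]` is generated by `Γ₀(N)` and
`δ⁻¹ Γ₀(N) δ`, `δ = diag(q, 1)` (Euclid on `q`-denominators: two column operations in
`Γ₀(N)` lower the `q`-level of a matrix by one).
-/
import Fermat.Agent.L.Ihara.B.Zq

set_option autoImplicit false

noncomputable section

namespace Fermat.Agent.LAmalS

open CongruenceSubgroup Matrix Fermat.Agent.LIh Fermat.Agent
open scoped MatrixGroups

/-- The integral lower unipotent `[1, 0; N s, 1]`. -/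
def lowZ (N : ℕ) (s : ℤ) : SL(2, ℤ) := ⟨!![1, 0; (N : ℤ) * s, 1], by simp [Matrix.det_fin_two_of]⟩

/-- The integral upper unipotent `[1, t; 0, 1]`. -/
def upZ (t : ℤ) : SL(2, ℤ) := ⟨!![1, t; 0, 1], by simp [Matrix.det_fin_two_of]⟩

@[simp] theorem lowZ_00 (N : ℕ) (s : ℤ) : (lowZ N s) 0 0 = 1 := rfl
@[simp] theorem lowZ_01 (N : ℕ) (s : ℤ) : (lowZ N s) 0 1 = 0 := rfl
@[simp] theorem lowZ_10 (N : ℕ) (s : ℤ) : (lowZ N s) 1 0 = (N : ℤ) * s := rfl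
@[simp] theorem lowZ_11 (N : ℕ) (s : ℤ) : (lowZ N s) 1 1 = 1 := rfl
@[simp] theorem upZ_00 (t : ℤ) : (upZ t) 0 0 = 1 := rfl
@[simp] theorem upZ_01 (t : ℤ) : (upZ t) 0 1 = t := rfl
@[simp] theorem upZ_10 (t : ℤ) : (upZ t) 1 0 = 0 := rfl
@[simp] theorem upZ_11 (t : ℤ) : (upZ t) 1 1 = 1 := rfl

theorem slZ_mul_apply (g h : SL(2, ℤ)) (i j : Fin 2) :
    (g * h) i j = g i 0 * h 0 j + g i 1 * h 1 j := by
  rw [Matrix.SpecialLinearGroup.coe_mul, Matrix.mul_apply, Fin.sum_univ_two]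

theorem lowZ_mem (N : ℕ) (s : ℤ) : lowZ N s ∈ Gamma0 N := by
  apply L.mem_Gamma0_of_dvd
  rw [lowZ_10]
  exact dvd_mul_right _ _

theorem upZ_mem (N : ℕ) (t : ℤ) : upZ t ∈ Gamma0 N := by
  apply L.mem_Gamma0_of_dvd
  rw [upZ_10]
  exact dvd_zero _

theorem dvd_iff_cast_eq_zero (q : ℕ) [NeZero q] (x : ℤ) : (q : ℤ) ∣ x ↔ ((x : ℤ) : ZMod q) = 0 :=
  (ZMod.intCast_zmod_eq_zero_iff_dvd x q).symm

/-- an integer `s` with `N s ≡ r mod q`. -/
theorem exists_N_mul (q N : ℕ) [Fact q.Prime] (hqN : ¬ q ∣ N) (r : ZMod q) :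
    ∃ s : ℤ, ((N : ZMod q)) * ((s : ℤ) : ZMod q) = r := by
  have hN : (N : ZMod q) ≠ 0 := by
    intro h
    exact hqN ((ZMod.natCast_eq_zero_iff N q).mp h)
  refine ⟨((r * (N : ZMod q)⁻¹).val : ℤ), ?_⟩
  push_cast
  rw [ZMod.natCast_zmod_val]
  field_simp

theorem exists_int_cast (q : ℕ) [NeZero q] (r : ZMod q) : ∃ t : ℤ, ((t : ℤ) : ZMod q) = r :=
  ⟨(r.val : ℤ), by push_cast; rw [ZMod.natCast_zmod_val]⟩

/-- **(E1)** a column operation in `Γ₀(N)` making the first column divisible by `q`. -/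
theorem exists_first_col (q N : ℕ) [Fact q.Prime] (hqN : ¬ q ∣ N)
    (A : Matrix (Fin 2) (Fin 2) ℤ) (hdet : (q : ℤ) ∣ A.det) :
    ∃ γ : SL(2, ℤ), γ ∈ Gamma0 N ∧
      (q : ℤ) ∣ A 0 0 * γ 0 0 + A 0 1 * γ 1 0 ∧ (q : ℤ) ∣ A 1 0 * γ 0 0 + A 1 1 * γ 1 0 := by
  have hdet' : ((A 0 0 : ℤ) : ZMod q) * (A 1 1 : ℤ) - (A 0 1 : ℤ) * (A 1 0 : ℤ) = 0 := by
    have := (dvd_iff_cast_eq_zero q _).mp hdet
    rw [Matrix.det_fin_two] at this
    push_cast at this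
    exact this
  by_cases hb : ((A 0 1 : ℤ) : ZMod q) = 0
  · by_cases hd : ((A 1 1 : ℤ) : ZMod q) = 0
    · -- second column ≡ 0
      obtain ⟨s, hs⟩ := exists_N_mul q N hqN (-1)
      refine ⟨upZ 1 * lowZ N s, mul_mem (upZ_mem N 1) (lowZ_mem N s), ?_, ?_⟩
      · rw [dvd_iff_cast_eq_zero]
        simp only [slZ_mul_apply, lowZ_00, lowZ_10, upZ_00, upZ_01, upZ_10, upZ_11]
        push_cast
        rw [hb]
        linear_combination ((A 0 0 : ℤ) : ZMod q) * hs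
      · rw [dvd_iff_cast_eq_zero]
        simp only [slZ_mul_apply, lowZ_00, lowZ_10, upZ_00, upZ_01, upZ_10, upZ_11]
        push_cast
        rw [hd]
        linear_combination ((A 1 0 : ℤ) : ZMod q) * hs
    · -- d ≠ 0
      obtain ⟨s, hs⟩ := exists_N_mul q N hqN (-((A 1 0 : ℤ) : ZMod q) / (A 1 1 : ℤ))
      have ha : ((A 0 0 : ℤ) : ZMod q) = 0 := by
        rw [hb, zero_mul, sub_zero] at hdet'
        exact (mul_eq_zero.mp hdet').resolve_right hd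
      refine ⟨lowZ N s, lowZ_mem N s, ?_, ?_⟩
      · rw [dvd_iff_cast_eq_zero]
        simp only [lowZ_00, lowZ_10]
        push_cast
        rw [hb, ha]
        ring
      · rw [dvd_iff_cast_eq_zero]
        simp only [lowZ_00, lowZ_10]
        push_cast
        rw [hs]
        field_simp
        ring
  · obtain ⟨s, hs⟩ := exists_N_mul q N hqN (-((A 0 0 : ℤ) : ZMod q) / (A 0 1 : ℤ))
    refine ⟨lowZ N s, lowZ_mem N s, ?_, ?_⟩
    · rw [dvd_iff_cast_eq_zero]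
      simp only [lowZ_00, lowZ_10]
      push_cast
      rw [hs]
      field_simp
      ring
    · rw [dvd_iff_cast_eq_zero]
      simp only [lowZ_00, lowZ_10]
      push_cast
      rw [hs]
      field_simp
      linear_combination (-1 : ZMod q) * hdet'

/-- **(E2)** a column operation in `Γ₀(N)` making the second column divisible by `q`. -/
theorem exists_second_col (q N : ℕ) [Fact q.Prime] (hqN : ¬ q ∣ N)
    (A : Matrix (Fin 2) (Fin 2) ℤ) (hdet : (q : ℤ) ∣ A.det) :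
    ∃ γ : SL(2, ℤ), γ ∈ Gamma0 N ∧
      (q : ℤ) ∣ A 0 0 * γ 0 1 + A 0 1 * γ 1 1 ∧ (q : ℤ) ∣ A 1 0 * γ 0 1 + A 1 1 * γ 1 1 := by
  have hdet' : ((A 0 0 : ℤ) : ZMod q) * (A 1 1 : ℤ) - (A 0 1 : ℤ) * (A 1 0 : ℤ) = 0 := by
    have := (dvd_iff_cast_eq_zero q _).mp hdet
    rw [Matrix.det_fin_two] at this
    push_cast at this
    exact this
  by_cases ha : ((A 0 0 : ℤ) : ZMod q) = 0
  · by_cases hc : ((A 1 0 : ℤ) : ZMod q) = 0
    · -- first column ≡ 0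
      obtain ⟨s, hs⟩ := exists_N_mul q N hqN 1
      refine ⟨lowZ N s * upZ (-1), mul_mem (lowZ_mem N s) (upZ_mem N (-1)), ?_, ?_⟩
      · rw [dvd_iff_cast_eq_zero]
        simp only [slZ_mul_apply, lowZ_00, lowZ_01, lowZ_10, lowZ_11, upZ_01, upZ_11]
        push_cast
        rw [ha]
        linear_combination (-((A 0 1 : ℤ) : ZMod q)) * hs
      · rw [dvd_iff_cast_eq_zero]
        simp only [slZ_mul_apply, lowZ_00, lowZ_01, lowZ_10, lowZ_11, upZ_01, upZ_11]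
        push_cast
        rw [hc]
        linear_combination (-((A 1 1 : ℤ) : ZMod q)) * hs
    · -- c ≠ 0
      obtain ⟨t, ht⟩ := exists_int_cast q (-((A 1 1 : ℤ) : ZMod q) / (A 1 0 : ℤ))
      have hb : ((A 0 1 : ℤ) : ZMod q) = 0 := by
        rw [ha, zero_mul, zero_sub, neg_eq_zero] at hdet'
        exact (mul_eq_zero.mp hdet').resolve_right hc
      refine ⟨upZ t, upZ_mem N t, ?_, ?_⟩
      · rw [dvd_iff_cast_eq_zero]
        simp only [upZ_01, upZ_11]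
        push_cast
        rw [hb, ha]
        ring
      · rw [dvd_iff_cast_eq_zero]
        simp only [upZ_01, upZ_11]
        push_cast
        rw [ht]
        field_simp
        ring
  · obtain ⟨t, ht⟩ := exists_int_cast q (-((A 0 1 : ℤ) : ZMod q) / (A 0 0 : ℤ))
    refine ⟨upZ t, upZ_mem N t, ?_, ?_⟩
    · rw [dvd_iff_cast_eq_zero]
      simp only [upZ_01, upZ_11]
      push_cast
      rw [ht]
      field_simp
      ring
    · rw [dvd_iff_cast_eq_zero]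
      simp only [upZ_01, upZ_11]
      push_cast
      rw [ht]
      field_simp
      linear_combination hdet'

/-! ### Levels -/

theorem gq_mul_apply (q : ℕ) (g h : Gq q) (i j : Fin 2) :
    (g * h) i j = g i 0 * h 0 j + g i 1 * h 1 j := by
  rw [Matrix.SpecialLinearGroup.coe_mul, Matrix.mul_apply, Fin.sum_univ_two]

theorem gq_det (q : ℕ) (g : Gq q) : g 0 0 * g 1 1 - g 0 1 * g 1 0 = 1 := by
  have h := g.2
  rw [Matrix.det_fin_two] at h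
  exact h

theorem conjInv_00 (q : ℕ) (g : Gq q) : (conjInv q g) 0 0 = g 0 0 := rfl
theorem conjInv_01 (q : ℕ) (g : Gq q) : (conjInv q g) 0 1 = g 0 1 * invq q := rfl
theorem conjInv_10 (q : ℕ) (g : Gq q) : (conjInv q g) 1 0 = (q : Zq q) * g 1 0 := rfl
theorem conjInv_11 (q : ℕ) (g : Gq q) : (conjInv q g) 1 1 = g 1 1 := rfl

theorem q_ne_zero (q : ℕ) (hq : q ≠ 0) : (q : Zq q) ≠ 0 := by
  have h := LIhB.intCast_injective (q := q) hq
  intro h0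
  have h1 : ((q : ℤ) : Zq q) = ((0 : ℤ) : Zq q) := by
    push_cast; exact h0
  have := h h1
  exact hq (by exact_mod_cast this)

/-- `q ^ k • g` is integral. -/
def IsLev0 (q k : ℕ) (g : Gq q) : Prop :=
  ∃ A : Matrix (Fin 2) (Fin 2) ℤ, ∀ i j, (q : Zq q) ^ k * g i j = ((A i j : ℤ) : Zq q)

/-- `q ^ k • (first column of g)` and `q ^ (k+1) • (second column of g)` are integral. -/
def IsLev1 (q k : ℕ) (g : Gq q) : Prop :=
  ∃ A : Matrix (Fin 2) (Fin 2) ℤ, (∀ i, (q : Zq q) ^ k * g i 0 = ((A i 0 : ℤ) : Zq q)) ∧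
    ∀ i, (q : Zq q) ^ (k + 1) * g i 1 = ((A i 1 : ℤ) : Zq q)

theorem exists_isLev0 (q : ℕ) (g : Gq q) : ∃ k, IsLev0 q k g := by
  choose n k hk using fun i j => LIhB.exists_int_pow (q := q) (g i j)
  refine ⟨k 0 0 + k 0 1 + k 1 0 + k 1 1, ?_⟩
  refine ⟨Matrix.of fun i j => n i j * (q : ℤ) ^ (k 0 0 + k 0 1 + k 1 0 + k 1 1 - k i j), ?_⟩
  intro i j
  have hle : k i j ≤ k 0 0 + k 0 1 + k 1 0 + k 1 1 := by
    fin_cases i <;> fin_cases j <;> simp <;> omega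
  simp only [Matrix.of_apply]
  push_cast
  have h1 := hk i j
  rw [← h1]
  have h2 : (q : Zq q) ^ (k 0 0 + k 0 1 + k 1 0 + k 1 1) =
      (q : Zq q) ^ (k i j) * (q : Zq q) ^ (k 0 0 + k 0 1 + k 1 0 + k 1 1 - k i j) := by
    rw [← pow_add]
    congr 1
    omega
  rw [h2]
  ring

theorem det_of_isLev0 (q : ℕ) (hq : q ≠ 0) (k : ℕ) (g : Gq q) (A : Matrix (Fin 2) (Fin 2) ℤ)
    (hA : ∀ i j, (q : Zq q) ^ k * g i j = ((A i j : ℤ) : Zq q)) : A.det = (q : ℤ) ^ (2 * k) := by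
  apply LIhB.intCast_injective (q := q) hq
  rw [Matrix.det_fin_two]
  push_cast
  rw [← hA 0 0, ← hA 1 1, ← hA 0 1, ← hA 1 0]
  have := gq_det q g
  linear_combination ((q : Zq q) ^ (2 * k)) * this

theorem det_of_isLev1 (q : ℕ) (hq : q ≠ 0) (k : ℕ) (g : Gq q) (A : Matrix (Fin 2) (Fin 2) ℤ)
    (hA0 : ∀ i, (q : Zq q) ^ k * g i 0 = ((A i 0 : ℤ) : Zq q))
    (hA1 : ∀ i, (q : Zq q) ^ (k + 1) * g i 1 = ((A i 1 : ℤ) : Zq q)) :
    A.det = (q : ℤ) ^ (2 * k + 1) := by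
  apply LIhB.intCast_injective (q := q) hq
  rw [Matrix.det_fin_two]
  push_cast
  rw [← hA0 0, ← hA1 1, ← hA1 0, ← hA0 1]
  have := gq_det q g
  linear_combination ((q : Zq q) ^ (2 * k + 1)) * this

/-- Step a. -/
theorem step_a (q N : ℕ) [Fact q.Prime] (hqN : ¬ q ∣ N) (k : ℕ) (g : Gq q)
    (hg : IsLev0 q (k + 1) g) : ∃ γ : Gamma0 N, IsLev1 q k (g * iotaZ q γ) := by
  have hq0 : q ≠ 0 := (Fact.out : q.Prime).ne_zero
  obtain ⟨A, hA⟩ := hg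
  have hdet := det_of_isLev0 q hq0 (k + 1) g A hA
  have hqdet : (q : ℤ) ∣ A.det := by
    rw [hdet]
    exact dvd_pow_self _ (by omega)
  obtain ⟨γ, hγ, ⟨a0, ha0⟩, ⟨a1, ha1⟩⟩ := exists_first_col q N hqN A hqdet
  have hqne := q_ne_zero q hq0
  have e0 : (((q : ℤ) * a0 : ℤ) : Zq q) = ((A 0 0 * γ 0 0 + A 0 1 * γ 1 0 : ℤ) : Zq q) := by
    rw [ha0]
  have e1 : (((q : ℤ) * a1 : ℤ) : Zq q) = ((A 1 0 * γ 0 0 + A 1 1 * γ 1 0 : ℤ) : Zq q) := by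
    rw [ha1]
  push_cast at e0 e1
  refine ⟨⟨γ, hγ⟩, ?_⟩
  refine ⟨Matrix.of ![![a0, A 0 0 * γ 0 1 + A 0 1 * γ 1 1], ![a1, A 1 0 * γ 0 1 + A 1 1 * γ 1 1]],
    Fin.forall_fin_two.mpr ⟨?_, ?_⟩, Fin.forall_fin_two.mpr ⟨?_, ?_⟩⟩
  · change _ = ((a0 : ℤ) : Zq q)
    apply mul_left_cancel₀ hqne
    rw [gq_mul_apply, iotaZ_apply, iotaZ_apply, e0, ← hA 0 0, ← hA 0 1]
    ring
  · change _ = ((a1 : ℤ) : Zq q)
    apply mul_left_cancel₀ hqne
    rw [gq_mul_apply, iotaZ_apply, iotaZ_apply, e1, ← hA 1 0, ← hA 1 1]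
    ring
  · change _ = ((A 0 0 * γ 0 1 + A 0 1 * γ 1 1 : ℤ) : Zq q)
    rw [gq_mul_apply, iotaZ_apply, iotaZ_apply]
    push_cast
    rw [← hA 0 0, ← hA 0 1]
    ring
  · change _ = ((A 1 0 * γ 0 1 + A 1 1 * γ 1 1 : ℤ) : Zq q)
    rw [gq_mul_apply, iotaZ_apply, iotaZ_apply]
    push_cast
    rw [← hA 1 0, ← hA 1 1]
    ring

/-- Step b. -/
theorem step_b (q N : ℕ) [Fact q.Prime] (hqN : ¬ q ∣ N) (k : ℕ) (g : Gq q)
    (hg : IsLev1 q k g) : ∃ γ : Gamma0 N, IsLev0 q k (g * conjInv q (iotaZ q γ)) := by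
  have hq0 : q ≠ 0 := (Fact.out : q.Prime).ne_zero
  obtain ⟨A, hA0, hA1⟩ := hg
  have hdet := det_of_isLev1 q hq0 k g A hA0 hA1
  have hqdet : (q : ℤ) ∣ A.det := by
    rw [hdet]
    exact dvd_pow_self _ (by omega)
  obtain ⟨γ, hγ, ⟨b0, hb0⟩, ⟨b1, hb1⟩⟩ := exists_second_col q N hqN A hqdet
  have hqne := q_ne_zero q hq0
  have hqi := q_mul_invq q
  have e0 : (((q : ℤ) * b0 : ℤ) : Zq q) = ((A 0 0 * γ 0 1 + A 0 1 * γ 1 1 : ℤ) : Zq q) := by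
    rw [hb0]
  have e1 : (((q : ℤ) * b1 : ℤ) : Zq q) = ((A 1 0 * γ 0 1 + A 1 1 * γ 1 1 : ℤ) : Zq q) := by
    rw [hb1]
  push_cast at e0 e1
  refine ⟨⟨γ, hγ⟩, ?_⟩
  refine ⟨Matrix.of ![![A 0 0 * γ 0 0 + A 0 1 * γ 1 0, b0], ![A 1 0 * γ 0 0 + A 1 1 * γ 1 0, b1]],
    Fin.forall_fin_two.mpr ⟨Fin.forall_fin_two.mpr ⟨?_, ?_⟩, Fin.forall_fin_two.mpr ⟨?_, ?_⟩⟩⟩
  · change _ = ((A 0 0 * γ 0 0 + A 0 1 * γ 1 0 : ℤ) : Zq q)
    rw [gq_mul_apply, conjInv_00, conjInv_10, iotaZ_apply, iotaZ_apply]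
    push_cast
    rw [← hA0 0, ← hA1 0]
    ring
  · change _ = ((b0 : ℤ) : Zq q)
    apply mul_left_cancel₀ hqne
    rw [gq_mul_apply, conjInv_01, conjInv_11, iotaZ_apply, iotaZ_apply, e0, ← hA0 0, ← hA1 0]
    linear_combination ((q : Zq q) ^ k * g 0 0 * (γ 0 1 : Zq q)) * hqi
  · change _ = ((A 1 0 * γ 0 0 + A 1 1 * γ 1 0 : ℤ) : Zq q)
    rw [gq_mul_apply, conjInv_00, conjInv_10, iotaZ_apply, iotaZ_apply]
    push_cast
    rw [← hA0 1, ← hA1 1]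
    ring
  · change _ = ((b1 : ℤ) : Zq q)
    apply mul_left_cancel₀ hqne
    rw [gq_mul_apply, conjInv_01, conjInv_11, iotaZ_apply, iotaZ_apply, e1, ← hA0 1, ← hA1 1]
    linear_combination ((q : Zq q) ^ k * g 1 0 * (γ 0 1 : Zq q)) * hqi

/-! ### The induction -/

/-- The subgroup of `Γ₀(N)[1/q]` generated by the two copies of `Γ₀(N)`. -/
def genSub (N q : ℕ) : Subgroup (Delta N q) := (iota N q).range ⊔ (iotaD N q).range

theorem iota_mem_genSub (N q : ℕ) (γ : Gamma0 N) : iota N q γ ∈ genSub N q :=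
  (le_sup_left : (iota N q).range ≤ genSub N q) ⟨γ, rfl⟩

theorem iotaD_mem_genSub (N q : ℕ) (γ : Gamma0 N) : iotaD N q γ ∈ genSub N q :=
  (le_sup_right : (iotaD N q).range ≤ genSub N q) ⟨γ, rfl⟩

/-- Base case: integral elements of `Γ₀(N)[1/q]` come from `Γ₀(N)`. -/
theorem mem_of_isLev0_zero (q N : ℕ) [Fact q.Prime] (hqN : ¬ q ∣ N) (g : Delta N q)
    (hg : IsLev0 q 0 (g : Gq q)) : g ∈ genSub N q := by
  have hq : q.Prime := Fact.out
  obtain ⟨A, hA⟩ := hg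
  have hA' : ∀ i j, (g : Gq q) i j = ((A i j : ℤ) : Zq q) := by
    intro i j
    have := hA i j
    rwa [pow_zero, one_mul] at this
  have hdet : A.det = 1 := by
    have := det_of_isLev0 q hq.ne_zero 0 (g : Gq q) A hA
    simpa using this
  have hcop : IsCoprime (N : ℤ) (q : ℤ) := by
    apply Nat.isCoprime_iff_coprime.mpr
    exact ((Nat.Prime.coprime_iff_not_dvd hq).mpr hqN).symm
  have hN : (N : ℤ) ∣ A 1 0 := by
    have h1 : (N : Zq q) ∣ (g : Gq q) 1 0 := mem_Delta.mp g.2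
    rw [hA' 1 0] at h1
    have h2 : (((N : ℤ) : ℤ) : Zq q) ∣ ((A 1 0 : ℤ) : Zq q) := by
      simpa using h1
    exact (LIhB.intCast_dvd_iff hq hcop).mp h2
  let γ : SL(2, ℤ) := ⟨A, hdet⟩
  have hγ : γ ∈ Gamma0 N := L.mem_Gamma0_of_dvd hN
  have hgγ : g = iota N q ⟨γ, hγ⟩ := by
    apply Subtype.ext
    apply Subtype.ext
    ext i j
    rw [iota_coe]
    change (g : Gq q) i j = (iotaZ q γ) i j
    rw [iotaZ_apply, hA' i j]
  rw [hgγ]
  exact iota_mem_genSub N q _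

theorem mem_of_isLev (q N : ℕ) [Fact q.Prime] (hqN : ¬ q ∣ N) :
    ∀ k : ℕ, ∀ g : Delta N q, IsLev0 q k (g : Gq q) → g ∈ genSub N q := by
  intro k
  induction k with
  | zero => exact fun g hg => mem_of_isLev0_zero q N hqN g hg
  | succ k ih =>
    intro g hg
    obtain ⟨γ, hγ⟩ := step_a q N hqN k (g : Gq q) hg
    obtain ⟨γ', hγ'⟩ := step_b q N hqN k _ hγ
    have h1 : g * iota N q γ * iotaD N q γ' ∈ genSub N q := ih _ hγ'
    have h2 : g = (g * iota N q γ * iotaD N q γ') * (iotaD N q γ')⁻¹ * (iota N q γ)⁻¹ := by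
      group
    rw [h2]
    exact mul_mem (mul_mem h1 (inv_mem (iotaD_mem_genSub N q γ')))
      (inv_mem (iota_mem_genSub N q γ))

/-- **(A1-SURJ)** `Γ₀(N)[1/q]` is generated by `Γ₀(N)` and `δ⁻¹ Γ₀(N) δ`. -/
theorem range_sup_range_eq_top (N q : ℕ) (hq : q.Prime) (hqN : ¬ q ∣ N) :
    (iota N q).range ⊔ (iotaD N q).range = ⊤ := by
  have : Fact q.Prime := ⟨hq⟩
  rw [eq_top_iff]
  intro g _
  obtain ⟨k, hk⟩ := exists_isLev0 q (g : Gq q)
  exact mem_of_isLev q N hqN k g hk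

end Fermat.Agent.LAmalS
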