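/-
Cluster L (S41, level raising), WP IHARA, piece A1 (amalgam): final statement.
Owners: helper88 (ping-pong, injectivity, glueing), helper59 (generation, `Surj.lean`).
-/
import Fermat.Agent.L.Amalgam.Glue
import Fermat.Agent.L.Amalgam.Surj

set_option autoImplicit false

namespace Fermat.Agent.LAmal

open Fermat.Agent.LIh

/-- **(A1)** glueing along the amalgam `Γ₀(N)[1/q] = Γ₀(N) *_{Γ₀(N q)} δ⁻¹ Γ₀(N) δ`. -/
theorem glueStatement (N q : ℕ) [NeZero q] : GlueStatement N q :=
  glueStatement_of_surj fun hq hqN _ => Fermat.Agent.LAmalS.range_sup_range_eq_top N q hq hqN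

end Fermat.Agent.LAmal
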